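/-
Project S27, cell (Z)/F7 (helper3): FULL RIEMANN–ROCH WITH DUALITY IN ANY CHARACTERISTIC, by Weil
differentials (Stichtenoth, §1.5) on top of the Prelude's repartitions and helper1's
`s27gen_finrank_H1`.  Prefix `s27wd_`.  Namespace `Fermat.Agent.S27`.

PART 1, ADELES.  `𝔸 = repartitions K F`, `𝔸(A) = repartitionsOf A`, `S_A = 𝔸(A) ⊔ F`.

* `s27wd_mul x`          : multiplication by `x ∈ F` on `𝔸`, as a `K`-linear map;
* `s27wd_repOf_sup_le`   : `𝔸(A ⊔ B) ≤ 𝔸(A) ⊔ 𝔸(B)`;
* `s27wd_mul_mem_repOf`  : `α ∈ 𝔸(A + (x)) ⟹ x α ∈ 𝔸(A)`;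
* `s27wd_mul_mem_S`      : `α ∈ S_{A + (x)} ⟹ x α ∈ S_A`.
-/
import Mathlib
import Fermat.Agent.S27.Genus.Dim

set_option autoImplicit false
set_option linter.unusedSectionVars false
set_option linter.style.haveILetI false
set_option linter.unusedVariables false

noncomputable section

namespace Fermat.Agent.S27

open AlgebraicCurve Fermat.Agent.JT3 Fermat.Agent.S24 WithZero

universe u v
variable {K : Type u} {F : Type v} [Field K] [Field F] [Algebra K F]

/-! ### multiplication by a function -/

theorem s27wd_fsmul_apply (x : F) (α : ↥(repartitions K F)) (w : Place K F) :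
    ((x • α : ↥(repartitions K F)) : Place K F → F) w = x * (α : Place K F → F) w := by
  simp

/-- multiplication by `x ∈ F` on the repartitions, as a `K`-linear map. -/
def s27wd_mul (x : F) : ↥(repartitions K F) →ₗ[K] ↥(repartitions K F) where
  toFun α := x • α
  map_add' α β := smul_add x α β
  map_smul' c α := by
    apply Subtype.ext
    funext w
    simp only [RingHom.id_apply]
    rw [s27wd_fsmul_apply, s27gen_smul_apply, s27gen_smul_apply, s27wd_fsmul_apply]
    ring

theorem s27wd_mul_apply (x : F) (α : ↥(repartitions K F)) (w : Place K F) :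
    ((s27wd_mul (K := K) x α : ↥(repartitions K F)) : Place K F → F) w =
      x * (α : Place K F → F) w :=
  s27wd_fsmul_apply x α w

theorem s27wd_mul_one : s27wd_mul (K := K) (F := F) 1 = LinearMap.id := by
  ext α : 1
  apply Subtype.ext
  funext w
  rw [s27wd_mul_apply, one_mul]
  rfl

theorem s27wd_mul_zero : s27wd_mul (K := K) (F := F) 0 = 0 := by
  ext α : 1
  apply Subtype.ext
  funext w
  rw [s27wd_mul_apply, zero_mul]
  rfl

theorem s27wd_mul_mul (x y : F) :
    s27wd_mul (K := K) (F := F) (x * y) = (s27wd_mul x).comp (s27wd_mul y) := by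
  ext α : 1
  apply Subtype.ext
  funext w
  rw [LinearMap.comp_apply, s27wd_mul_apply, s27wd_mul_apply, s27wd_mul_apply, mul_assoc]

theorem s27wd_mul_add (x y : F) :
    s27wd_mul (K := K) (F := F) (x + y) = s27wd_mul x + s27wd_mul y := by
  ext α : 1
  apply Subtype.ext
  funext w
  rw [LinearMap.add_apply, s27gen_add_apply, s27wd_mul_apply, s27wd_mul_apply, s27wd_mul_apply,
    add_mul]

theorem s27wd_mul_algebraMap (c : K) :
    s27wd_mul (K := K) (F := F) (algebraMap K F c) = c • LinearMap.id := by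
  ext α : 1
  apply Subtype.ext
  funext w
  rw [s27wd_mul_apply, LinearMap.smul_apply, LinearMap.id_apply, s27gen_smul_apply]

theorem s27wd_mul_const (x f : F) :
    s27wd_mul (K := K) x (s27gen_const f) = s27gen_const (x * f) := by
  apply Subtype.ext
  funext w
  rw [s27wd_mul_apply, s27gen_const_apply, s27gen_const_apply]

/-! ### `𝔸(A ⊔ B) ≤ 𝔸(A) ⊔ 𝔸(B)` -/

theorem s27wd_repOf_sup_le (A B : Divisor K F) :
    repartitionsOf (A ⊔ B) ≤ repartitionsOf A ⊔ repartitionsOf B := by
  classical
  intro α hα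
  have hβ : ∀ w : Place K F,
      w.adicValuation ((fun w => if B w ≤ A w then (α : Place K F → F) w else 0) w) ≤
        exp (A w) := by
    intro w
    by_cases h : B w ≤ A w
    · have h1 := hα w
      rw [Finsupp.sup_apply, sup_eq_left.2 h] at h1
      simpa only [if_pos h] using h1
    · simp only [if_neg h, map_zero]
      exact zero_le
  have hγ : ∀ w : Place K F,
      w.adicValuation ((fun w => if B w ≤ A w then 0 else (α : Place K F → F) w) w) ≤
        exp (B w) := by
    intro w
    by_cases h : B w ≤ A w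
    · simp only [if_pos h, map_zero]
      exact zero_le
    · have h1 := hα w
      rw [Finsupp.sup_apply, sup_eq_right.2 (le_of_not_ge h)] at h1
      simpa only [if_neg h] using h1
  set β : ↥(repartitions K F) := ⟨_, mem_repartitions_of_forall_le_exp A _ hβ⟩ with hβdef
  set γ : ↥(repartitions K F) := ⟨_, mem_repartitions_of_forall_le_exp B _ hγ⟩ with hγdef
  have hsum : α = β + γ := by
    apply Subtype.ext
    funext w
    rw [s27gen_add_apply]
    show (α : Place K F → F) w = (if B w ≤ A w then (α : Place K F → F) w else 0) +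
      (if B w ≤ A w then 0 else (α : Place K F → F) w)
    by_cases h : B w ≤ A w
    · rw [if_pos h, if_pos h, add_zero]
    · rw [if_neg h, if_neg h, zero_add]
  rw [hsum]
  exact Submodule.add_mem _ (Submodule.mem_sup_left hβ) (Submodule.mem_sup_right hγ)

section shift

variable [IsAlgClosed K] {x : F} (hx : rt_IsSepGen K x)

include hx

/-- `α ∈ 𝔸(A + (z)) ⟹ z α ∈ 𝔸(A)`. -/
theorem s27wd_mul_mem_repOf (A : Divisor K F) {z : F} (hz : z ≠ 0) {α : ↥(repartitions K F)}
    (hα : α ∈ repartitionsOf (A + rt_div hx z)) : s27wd_mul z α ∈ repartitionsOf A := by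
  intro w
  rw [s27wd_mul_apply, map_mul, w.adicValuation_eq_exp_neg_ord hz]
  have h1 := hα w
  rw [Finsupp.add_apply, rt_div_apply] at h1
  calc exp (-w.ord z) * w.adicValuation ((α : Place K F → F) w)
      ≤ exp (-w.ord z) * exp (A w + w.ord z) := mul_le_mul_right h1 _
    _ = exp (A w) := by rw [s27gen_exp_mul_exp]; congr 1; ring

/-- `α ∈ S_{A + (z)} ⟹ z α ∈ S_A`. -/
theorem s27wd_mul_mem_S (A : Divisor K F) {z : F} (hz : z ≠ 0) {α : ↥(repartitions K F)}
    (hα : α ∈ s27gen_S (A + rt_div hx z)) : s27wd_mul z α ∈ s27gen_S A := by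
  obtain ⟨β, hβ, γ, hγ, rfl⟩ := Submodule.mem_sup.1 hα
  rw [map_add]
  refine Submodule.add_mem _ (Submodule.mem_sup_left (s27wd_mul_mem_repOf hx A hz hβ))
    (Submodule.mem_sup_right ?_)
  obtain ⟨f, hf⟩ := mem_principalRepartitions_iff.1 hγ
  have : γ = s27gen_const f := by
    apply Subtype.ext
    rw [hf]
    funext w
    rw [s27gen_const_apply]
  rw [this, s27wd_mul_const]
  exact s27gen_const_mem _

end shift

end Fermat.Agent.S27
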