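/-
Project S27, cell (Z)/F7 (helper3): FULL RIEMANN–ROCH WITH DUALITY IN ANY CHARACTERISTIC, by Weil
differentials (Stichtenoth, §1.5).  Prefix `s27wd_`.  Namespace `Fermat.Agent.S27`.

PART 2, WEIL DIFFERENTIALS.  A Weil differential is a `K`-linear functional `ω` on `𝔸` vanishing on
some `S_A = 𝔸(A) ⊔ F` (`s27wd_Van ω A`); `F` acts by `(x ω)(α) = ω (x α)` (`s27wd_act`).

* `s27wd_van_sup`, `s27wd_van_act`, `s27wd_deg_lt`, `s27wd_exists_max` : the divisor of `ω ≠ 0`;
* `s27wd_finrank_Omega`  : `dim_K Ω(A) = dim_K H1(A)`;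
* `s27wd_dim_le_one`     : the Weil differentials form an `F`-space of dimension `≤ 1`;
* `s27wd_exists_ne_zero` : there is a nonzero Weil differential.
-/
import Mathlib
import Fermat.Agent.S27.RR.Adele

set_option autoImplicit false
set_option linter.unusedSectionVars false
set_option linter.style.haveILetI false
set_option linter.unusedVariables false

noncomputable section

namespace Fermat.Agent.S27

open AlgebraicCurve Fermat.Agent.JT3 Fermat.Agent.S24 WithZero Module

universe u v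
variable {K : Type u} {F : Type v} [Field K] [Field F] [Algebra K F]

/-- `ω` vanishes on `S_A = 𝔸(A) ⊔ F`. -/
def s27wd_Van (ω : Module.Dual K ↥(repartitions K F)) (A : Divisor K F) : Prop :=
  s27gen_S A ≤ LinearMap.ker ω

/-- the action of `F` on the functionals: `(x ω)(α) = ω (x α)`. -/
def s27wd_act (x : F) (ω : Module.Dual K ↥(repartitions K F)) :
    Module.Dual K ↥(repartitions K F) :=
  ω.comp (s27wd_mul x)

theorem s27wd_act_apply (x : F) (ω : Module.Dual K ↥(repartitions K F))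
    (α : ↥(repartitions K F)) : s27wd_act x ω α = ω (s27wd_mul x α) := rfl

theorem s27wd_act_one (ω : Module.Dual K ↥(repartitions K F)) : s27wd_act 1 ω = ω := by
  rw [s27wd_act, s27wd_mul_one, LinearMap.comp_id]

theorem s27wd_act_zero (ω : Module.Dual K ↥(repartitions K F)) : s27wd_act 0 ω = 0 := by
  rw [s27wd_act, s27wd_mul_zero, LinearMap.comp_zero]

theorem s27wd_act_act (x y : F) (ω : Module.Dual K ↥(repartitions K F)) :
    s27wd_act x (s27wd_act y ω) = s27wd_act (y * x) ω := by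
  rw [s27wd_act, s27wd_act, s27wd_act, s27wd_mul_mul, LinearMap.comp_assoc]

theorem s27wd_act_inv_act {x : F} (hx0 : x ≠ 0) (ω : Module.Dual K ↥(repartitions K F)) :
    s27wd_act x⁻¹ (s27wd_act x ω) = ω := by
  rw [s27wd_act_act, mul_inv_cancel₀ hx0, s27wd_act_one]

theorem s27wd_act_act_inv {x : F} (hx0 : x ≠ 0) (ω : Module.Dual K ↥(repartitions K F)) :
    s27wd_act x (s27wd_act x⁻¹ ω) = ω := by
  rw [s27wd_act_act, inv_mul_cancel₀ hx0, s27wd_act_one]

theorem s27wd_eq_zero_of_act_eq_zero {x : F} (hx0 : x ≠ 0)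
    {ω : Module.Dual K ↥(repartitions K F)} (h : s27wd_act x ω = 0) : ω = 0 := by
  rw [← s27wd_act_inv_act hx0 ω, h, s27wd_act, LinearMap.zero_comp]

/-- `x ↦ x ω`, as a `K`-linear map. -/
def s27wd_actL (ω : Module.Dual K ↥(repartitions K F)) :
    F →ₗ[K] Module.Dual K ↥(repartitions K F) where
  toFun x := s27wd_act x ω
  map_add' x y := by
    rw [s27wd_act, s27wd_mul_add, LinearMap.comp_add]
    rfl
  map_smul' c x := by
    rw [RingHom.id_apply, Algebra.smul_def, s27wd_act, s27wd_mul_mul, s27wd_mul_algebraMap]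
    ext α
    rw [LinearMap.comp_apply, LinearMap.comp_apply, LinearMap.smul_apply, LinearMap.id_apply,
      map_smul, LinearMap.smul_apply]
    rfl

theorem s27wd_actL_apply (ω : Module.Dual K ↥(repartitions K F)) (x : F) :
    s27wd_actL ω x = s27wd_act x ω := rfl

/-! ### vanishing -/

theorem s27wd_van_iff {ω : Module.Dual K ↥(repartitions K F)} {A : Divisor K F} :
    s27wd_Van ω A ↔ ω ∈ (s27gen_S A).dualAnnihilator := by
  rw [Submodule.mem_dualAnnihilator]
  exact ⟨fun h w hw => h hw, fun h w hw => h w hw⟩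

theorem s27wd_van_mono {ω : Module.Dual K ↥(repartitions K F)} {A B : Divisor K F} (h : A ≤ B)
    (hB : s27wd_Van ω B) : s27wd_Van ω A :=
  (s27gen_S_mono h).trans hB

theorem s27wd_van_zero (A : Divisor K F) :
    s27wd_Van (0 : Module.Dual K ↥(repartitions K F)) A := by
  intro α _
  rfl

theorem s27wd_van_sup {ω : Module.Dual K ↥(repartitions K F)} {A B : Divisor K F}
    (hA : s27wd_Van ω A) (hB : s27wd_Van ω B) : s27wd_Van ω (A ⊔ B) :=
  sup_le ((s27wd_repOf_sup_le A B).trans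
    (sup_le (le_sup_left.trans hA) (le_sup_left.trans hB))) (le_sup_right.trans hA)

section main

variable [IsAlgClosed K] {x : F} (hx : rt_IsSepGen K x)

include hx

theorem s27wd_van_act {ω : Module.Dual K ↥(repartitions K F)} {A : Divisor K F} {z : F}
    (hz : z ≠ 0) (hA : s27wd_Van ω A) : s27wd_Van (s27wd_act z ω) (A + rt_div hx z) := by
  intro α hα
  rw [LinearMap.mem_ker, s27wd_act_apply]
  exact hA (s27wd_mul_mem_S hx A hz hα)

/-- for `z ∈ L(A + B)`, `z ω` vanishes on `S_{-B}` as soon as `ω` vanishes on `S_A`. -/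
theorem s27wd_van_act_of_mem_L {ω : Module.Dual K ↥(repartitions K F)} {A B : Divisor K F}
    (hA : s27wd_Van ω A) {z : F} (hz : z ∈ riemannRochSpace (A + B)) :
    s27wd_Van (s27wd_act z ω) (-B) := by
  rcases eq_or_ne z 0 with rfl | hz0
  · rw [s27wd_act_zero]
    exact s27wd_van_zero _
  · refine s27wd_van_mono ?_ (s27wd_van_act hx hz0 hA)
    rw [Finsupp.le_def]
    intro w
    have h1 := (rt_mem_L_iff hz0).1 hz w
    rw [Finsupp.add_apply] at h1
    rw [Finsupp.neg_apply, Finsupp.add_apply, rt_div_apply]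
    omega

variable {g : ℕ} {c : ℤ}
  (hc : ∀ D : Divisor K F, c ≤ Divisor.degree D →
    (Module.finrank K ↥(riemannRochSpace D) : ℤ) = Divisor.degree D + 1 - g)

include hc

/-- a nonzero Weil differential vanishes only on `S_A` with `deg A < c`. -/
theorem s27wd_deg_lt {ω : Module.Dual K ↥(repartitions K F)} (hω : ω ≠ 0) {A : Divisor K F}
    (hA : s27wd_Van ω A) : Divisor.degree A < c := by
  by_contra hcon
  rw [not_lt] at hcon
  apply hω
  have htop := s27gen_S_eq_top hx hc A hcon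
  ext α
  have : α ∈ LinearMap.ker ω := hA (by rw [htop]; exact Submodule.mem_top)
  exact this

/-- **the divisor of a nonzero Weil differential.** -/
theorem s27wd_exists_max {ω : Module.Dual K ↥(repartitions K F)} (hω : ω ≠ 0) {A₀ : Divisor K F}
    (hA₀ : s27wd_Van ω A₀) :
    ∃ W : Divisor K F, s27wd_Van ω W ∧ ∀ A : Divisor K F, s27wd_Van ω A → A ≤ W := by
  obtain ⟨d, ⟨W, hW, hWd⟩, hmax⟩ := Int.exists_greatest_of_bdd
    (P := fun d => ∃ A : Divisor K F, s27wd_Van ω A ∧ Divisor.degree A = d)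
    ⟨c, fun z ⟨A, hA, hAz⟩ => hAz ▸ (s27wd_deg_lt hx hc hω hA).le⟩
    ⟨_, A₀, hA₀, rfl⟩
  refine ⟨W, hW, fun A hA => ?_⟩
  have hsup := s27wd_van_sup hA hW
  have h1 : Divisor.degree (A ⊔ W) ≤ d := hmax _ ⟨_, hsup, rfl⟩
  by_contra hle
  have hne : W ≠ A ⊔ W := fun h => hle (by rw [h]; exact le_sup_left)
  have := rt_degree_lt_of_lt hx (le_sup_right : W ≤ A ⊔ W) hne
  omega

/-- `dim_K Ω(A) = dim_K H1(A) = ℓ(A) - deg A - 1 + g`. -/
theorem s27wd_finrank_Omega (A : Divisor K F) :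
    Module.Finite K ↥(s27gen_S A).dualAnnihilator ∧
      (Module.finrank K ↥(s27gen_S A).dualAnnihilator : ℤ) =
        Module.finrank K ↥(riemannRochSpace A) - Divisor.degree A - 1 + g := by
  obtain ⟨hfin, hrank⟩ := s27gen_finrank_H1 hx hc A
  haveI := hfin
  have e := Submodule.dualQuotEquivDualAnnihilator (s27gen_S A)
  refine ⟨Module.Finite.equiv e, ?_⟩
  rw [← hrank, ← e.finrank_eq, Subspace.dual_finrank_eq]

/-- there is a nonzero Weil differential. -/
theorem s27wd_exists_ne_zero :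
    ∃ (ω : Module.Dual K ↥(repartitions K F)) (A : Divisor K F), ω ≠ 0 ∧ s27wd_Van ω A := by
  obtain ⟨P⟩ := s27gen_nonempty_place hx
  set A : Divisor K F := Finsupp.single P (-2 : ℤ) with hA
  have hdeg : Divisor.degree A = -2 := rt_degree_single hx P _
  obtain ⟨hfin, hrank⟩ := s27wd_finrank_Omega hx hc A
  haveI := hfin
  rw [rt_finrank_L_of_degree_neg hx (by rw [hdeg]; norm_num), hdeg] at hrank
  have hpos : 0 < Module.finrank K ↥(s27gen_S A).dualAnnihilator := by
    have : (0 : ℤ) < Module.finrank K ↥(s27gen_S A).dualAnnihilator := by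
      rw [hrank]
      have : (0 : ℤ) ≤ g := Int.natCast_nonneg g
      push_cast
      omega
    exact_mod_cast this
  have hne : (s27gen_S A).dualAnnihilator ≠ ⊥ := by
    intro hbot
    rw [hbot, finrank_bot] at hpos
    exact lt_irrefl _ hpos
  obtain ⟨ω, hωmem, hω0⟩ := (Submodule.ne_bot_iff _).1 hne
  exact ⟨ω, A, hω0, s27wd_van_iff.2 hωmem⟩

/-- **Stichtenoth, Prop. 1.5.9**: the Weil differentials form an `F`-vector space of dimension at
most one. -/
theorem s27wd_dim_le_one {ω₁ ω₂ : Module.Dual K ↥(repartitions K F)} {A₁ A₂ : Divisor K F}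
    (h₁ : s27wd_Van ω₁ A₁) (h₂ : s27wd_Van ω₂ A₂) (hω₂ : ω₂ ≠ 0) :
    ∃ z : F, ω₁ = s27wd_act z ω₂ := by
  rcases eq_or_ne ω₁ 0 with rfl | hω₁
  · exact ⟨0, (s27wd_act_zero _).symm⟩
  obtain ⟨P⟩ := s27gen_nonempty_place hx
  -- the auxiliary divisor `B = n P`
  set n : ℕ := (3 * (g : ℤ) - 2 - Divisor.degree A₁ - Divisor.degree A₂).toNat + 1 with hn
  have hn1 : (1 : ℤ) ≤ n := by rw [hn]; push_cast; omega
  have hn2 : 3 * (g : ℤ) - 3 - Divisor.degree A₁ - Divisor.degree A₂ < n := by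
    rw [hn]; push_cast
    have := Int.self_le_toNat (3 * (g : ℤ) - 2 - Divisor.degree A₁ - Divisor.degree A₂)
    omega
  set B : Divisor K F := Finsupp.single P (n : ℤ) with hB
  have hdegB : Divisor.degree B = n := rt_degree_single hx P _
  -- the two maps
  haveI hf₁ := rt_L_finite hx (A₁ + B)
  haveI hf₂ := rt_L_finite hx (A₂ + B)
  set φ₁ : ↥(riemannRochSpace (A₁ + B)) →ₗ[K] Module.Dual K ↥(repartitions K F) :=
    (s27wd_actL ω₁).comp (Submodule.subtype _) with hφ₁
  set φ₂ : ↥(riemannRochSpace (A₂ + B)) →ₗ[K] Module.Dual K ↥(repartitions K F) :=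
    (s27wd_actL ω₂).comp (Submodule.subtype _) with hφ₂
  have hinj₁ : Function.Injective φ₁ := by
    rw [← LinearMap.ker_eq_bot, LinearMap.ker_eq_bot']
    intro z hz
    by_contra hz0
    exact hω₁ (s27wd_eq_zero_of_act_eq_zero (fun h => hz0 (Subtype.ext h)) hz)
  have hinj₂ : Function.Injective φ₂ := by
    rw [← LinearMap.ker_eq_bot, LinearMap.ker_eq_bot']
    intro z hz
    by_contra hz0
    exact hω₂ (s27wd_eq_zero_of_act_eq_zero (fun h => hz0 (Subtype.ext h)) hz)
  have hr₁ : LinearMap.range φ₁ ≤ (s27gen_S (-B)).dualAnnihilator := by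
    rintro _ ⟨z, rfl⟩
    exact s27wd_van_iff.1 (s27wd_van_act_of_mem_L hx h₁ z.2)
  have hr₂ : LinearMap.range φ₂ ≤ (s27gen_S (-B)).dualAnnihilator := by
    rintro _ ⟨z, rfl⟩
    exact s27wd_van_iff.1 (s27wd_van_act_of_mem_L hx h₂ z.2)
  obtain ⟨hfinΩ, hrankΩ⟩ := s27wd_finrank_Omega hx hc (-B)
  haveI := hfinΩ
  have hdegnB : Divisor.degree (-B) = -(n : ℤ) := by rw [map_neg, hdegB]
  rw [rt_finrank_L_of_degree_neg hx (by rw [hdegnB]; omega), hdegnB] at hrankΩ
  have hd₁ : (Module.finrank K ↥(LinearMap.range φ₁) : ℤ) ≥ Divisor.degree A₁ + n + 1 - g := by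
    rw [LinearMap.finrank_range_of_inj hinj₁]
    have := s27gen_riemann_ineq hx hc (A₁ + B)
    rw [map_add, hdegB] at this
    linarith
  have hd₂ : (Module.finrank K ↥(LinearMap.range φ₂) : ℤ) ≥ Divisor.degree A₂ + n + 1 - g := by
    rw [LinearMap.finrank_range_of_inj hinj₂]
    have := s27gen_riemann_ineq hx hc (A₂ + B)
    rw [map_add, hdegB] at this
    linarith
  have hsum := Submodule.finrank_sup_add_finrank_inf_eq (LinearMap.range φ₁) (LinearMap.range φ₂)
  have hle : Module.finrank K ↥(LinearMap.range φ₁ ⊔ LinearMap.range φ₂) ≤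
      Module.finrank K ↥(s27gen_S (-B)).dualAnnihilator :=
    Submodule.finrank_mono (sup_le hr₁ hr₂)
  have hne : LinearMap.range φ₁ ⊓ LinearMap.range φ₂ ≠ ⊥ := by
    intro hbot
    rw [hbot, finrank_bot, add_zero] at hsum
    have h3 : (Module.finrank K ↥(LinearMap.range φ₁) : ℤ) +
        Module.finrank K ↥(LinearMap.range φ₂) ≤
        Module.finrank K ↥(s27gen_S (-B)).dualAnnihilator := by
      exact_mod_cast hsum ▸ hle
    rw [hrankΩ] at h3
    push_cast at h3
    linarith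
  obtain ⟨η, hη, hη0⟩ := (Submodule.ne_bot_iff _).1 hne
  obtain ⟨⟨z₁, hz₁⟩, hz₁'⟩ := hη.1
  obtain ⟨⟨z₂, hz₂⟩, hz₂'⟩ := hη.2
  have e₁ : s27wd_act z₁ ω₁ = η := hz₁'
  have e₂ : s27wd_act z₂ ω₂ = η := hz₂'
  have hz₁0 : z₁ ≠ 0 := by
    rintro rfl
    rw [s27wd_act_zero] at e₁
    exact hη0 e₁.symm
  refine ⟨z₂ * z₁⁻¹, ?_⟩
  rw [← s27wd_act_act, e₂, ← e₁, s27wd_act_inv_act hz₁0]

end main

end Fermat.Agent.S27
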