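/-
Project S27, cell (Z)/F7 (helper3): FULL RIEMANN–ROCH WITH DUALITY IN ANY CHARACTERISTIC, by Weil
differentials (Stichtenoth, §1.5).  Prefix `s27wd_`.  Namespace `Fermat.Agent.S27`.

PART 3, THE DUALITY THEOREM AND RIEMANN–ROCH.  `K` algebraically closed of ANY characteristic,
`x` a separating generator of `F / K`, `(g, c)` any pair as in Riemann's theorem `rt_riemann`.

* `s27wd_duality`            : `ℓ(W - A) = dim_K H1(A)` for `W` the divisor of a Weil differential;
* `s27wd_riemannRoch`        : `∃ W, ∀ A, ℓ(A) = deg A + 1 - g + ℓ(W - A)`;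
* `s27wd_riemannRoch'`       : the same with Riemann's theorem unpacked (only `hx`);
* corollaries for a canonical divisor `W` (`s27wd_IsCanonical g W`): `deg W = 2g - 2`, `ℓ(W) = g`,
  `ℓ(A) = deg A + 1 - g` for `deg A ≥ 2g - 1`, uniqueness of the canonical class.
-/
import Mathlib
import Fermat.Agent.S27.RR.Weil

set_option autoImplicit false
set_option linter.unusedSectionVars false
set_option linter.style.haveILetI false
set_option linter.unusedVariables false

noncomputable section

namespace Fermat.Agent.S27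

open AlgebraicCurve Fermat.Agent.JT3 Fermat.Agent.S24 WithZero Module

universe u v
variable {K : Type u} {F : Type v} [Field K] [Field F] [Algebra K F]

/-- `W` is a canonical divisor for the genus `g`: Riemann–Roch holds with `W`. -/
def s27wd_IsCanonical (g : ℕ) (W : Divisor K F) : Prop :=
  ∀ A : Divisor K F, (Module.finrank K ↥(riemannRochSpace A) : ℤ) =
    Divisor.degree A + 1 - g + Module.finrank K ↥(riemannRochSpace (W - A))

section main

variable [IsAlgClosed K] {x : F} (hx : rt_IsSepGen K x)

include hx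

section riemann

variable {g : ℕ} {c : ℤ}
  (hc : ∀ D : Divisor K F, c ≤ Divisor.degree D →
    (Module.finrank K ↥(riemannRochSpace D) : ℤ) = Divisor.degree D + 1 - g)

include hc

/-- **the duality theorem** (Stichtenoth, Thm. 1.5.14). -/
theorem s27wd_duality {ω : Module.Dual K ↥(repartitions K F)} (hω : ω ≠ 0) {W : Divisor K F}
    (hW : s27wd_Van ω W) (hmax : ∀ A : Divisor K F, s27wd_Van ω A → A ≤ W) (A : Divisor K F) :
    Module.finrank K ↥(riemannRochSpace (W - A)) = Module.finrank K (H1 A) := by
  obtain ⟨hfin, -⟩ := s27gen_finrank_H1 hx hc A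
  haveI := hfin
  set ψ : ↥(riemannRochSpace (W - A)) →ₗ[K] Module.Dual K ↥(repartitions K F) :=
    (s27wd_actL ω).comp (Submodule.subtype _) with hψ
  have hinj : Function.Injective ψ := by
    rw [← LinearMap.ker_eq_bot, LinearMap.ker_eq_bot']
    intro z hz
    by_contra hz0
    exact hω (s27wd_eq_zero_of_act_eq_zero (fun h => hz0 (Subtype.ext h)) hz)
  have hrange : LinearMap.range ψ = (s27gen_S A).dualAnnihilator := by
    apply le_antisymm
    · rintro _ ⟨z, rfl⟩
      have h1 : s27wd_Van (s27wd_act (z : F) ω) (-(-A)) := by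
        apply s27wd_van_act_of_mem_L hx hW
        have : W + -A = W - A := by abel
        rw [this]
        exact z.2
      rw [neg_neg] at h1
      exact s27wd_van_iff.1 h1
    · intro η hη
      have hηA : s27wd_Van η A := s27wd_van_iff.2 hη
      rcases eq_or_ne η 0 with rfl | hη0
      · exact Submodule.zero_mem _
      obtain ⟨z, hz⟩ := s27wd_dim_le_one hx hc hηA hW hω
      have hz0 : z ≠ 0 := by
        rintro rfl
        rw [s27wd_act_zero] at hz
        exact hη0 hz
      have h2 : s27wd_Van (s27wd_act z⁻¹ η) (A + rt_div hx z⁻¹) :=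
        s27wd_van_act hx (inv_ne_zero hz0) hηA
      rw [hz, s27wd_act_inv_act hz0] at h2
      have h3 := hmax _ h2
      have hzL : z ∈ riemannRochSpace (W - A) := by
        rw [rt_mem_L_iff hz0]
        intro w
        have h4 := Finsupp.le_def.1 h3 w
        rw [Finsupp.add_apply, rt_div_apply, w.ord_inv] at h4
        rw [Finsupp.sub_apply]
        omega
      exact ⟨⟨z, hzL⟩, hz.symm⟩
  have e := Submodule.dualQuotEquivDualAnnihilator (s27gen_S A)
  rw [← LinearMap.finrank_range_of_inj hinj, hrange, ← e.finrank_eq, Subspace.dual_finrank_eq]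

/-- **Riemann–Roch with duality**, relative to a pair `(g, c)` as in Riemann's theorem. -/
theorem s27wd_riemannRoch : ∃ W : Divisor K F, s27wd_IsCanonical g W := by
  obtain ⟨ω, A₀, hω, hA₀⟩ := s27wd_exists_ne_zero hx hc
  obtain ⟨W, hW, hmax⟩ := s27wd_exists_max hx hc hω hA₀
  refine ⟨W, fun A => ?_⟩
  obtain ⟨-, h⟩ := s27gen_finrank_H1 hx hc A
  rw [s27wd_duality hx hc hω hW hmax A, h]
  ring

end riemann

/-- **Riemann–Roch with duality**, any characteristic: one genus `g` and one divisor `W` with
`ℓ(A) = deg A + 1 - g + ℓ(W - A)` for all `A`, and `g = genusFF K F`. -/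
theorem s27wd_riemannRoch' :
    ∃ W : Divisor K F, s27wd_IsCanonical (genusFF K F) W := by
  obtain ⟨g, c, hgc⟩ := rt_riemann hx
  have hc := fun D => (hgc D).2
  rw [s27gen_genusFF_eq hx hc]
  exact s27wd_riemannRoch hx hc

/-! ### corollaries for a canonical divisor -/

variable {g : ℕ} {W : Divisor K F} (hW : s27wd_IsCanonical g W)

include hW

/-- `ℓ(W) = g`. -/
theorem s27wd_finrank_L_canonical : Module.finrank K ↥(riemannRochSpace W) = g := by
  have h := hW 0
  rw [rt_finrank_L_zero hx, map_zero, sub_zero] at h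
  have : (Module.finrank K ↥(riemannRochSpace W) : ℤ) = g := by
    push_cast at h
    linarith
  exact_mod_cast this

/-- `deg W = 2 g - 2`. -/
theorem s27wd_degree_canonical : Divisor.degree W = 2 * (g : ℤ) - 2 := by
  have h := hW W
  rw [sub_self, rt_finrank_L_zero hx, s27wd_finrank_L_canonical hx hW] at h
  push_cast at h
  linarith

/-- `ℓ(A) = deg A + 1 - g` as soon as `deg A ≥ 2 g - 1`. -/
theorem s27wd_finrank_L_of_large {A : Divisor K F} (hA : 2 * (g : ℤ) - 1 ≤ Divisor.degree A) :
    (Module.finrank K ↥(riemannRochSpace A) : ℤ) = Divisor.degree A + 1 - g := by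
  have h := hW A
  have hdeg : Divisor.degree (W - A) < 0 := by
    rw [map_sub, s27wd_degree_canonical hx hW]
    omega
  rw [rt_finrank_L_of_degree_neg hx hdeg] at h
  rw [h]
  push_cast
  ring

/-- Riemann's inequality. -/
theorem s27wd_riemann_ineq (A : Divisor K F) :
    Divisor.degree A + 1 - g ≤ (Module.finrank K ↥(riemannRochSpace A) : ℤ) := by
  rw [hW A]
  have : (0 : ℤ) ≤ Module.finrank K ↥(riemannRochSpace (W - A)) := Int.natCast_nonneg _
  linarith

/-- the symmetric form: `ℓ(W - A) = deg (W - A) + 1 - g + ℓ(A)`. -/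
theorem s27wd_isCanonical_symm (A : Divisor K F) :
    (Module.finrank K ↥(riemannRochSpace (W - A)) : ℤ) =
      Divisor.degree (W - A) + 1 - g + Module.finrank K ↥(riemannRochSpace A) := by
  have h := hW (W - A)
  rw [sub_sub_cancel] at h
  exact h

/-- **uniqueness of the canonical class**: a divisor `W'` with `deg W' = 2g - 2` and `ℓ(W') ≥ g`
is linearly equivalent to `W`. -/
theorem s27wd_canonical_unique {W' : Divisor K F} (hdeg : Divisor.degree W' = 2 * (g : ℤ) - 2)
    (hl : g ≤ Module.finrank K ↥(riemannRochSpace W')) :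
    ∃ z : F, z ≠ 0 ∧ W' = W + rt_div hx z := by
  have h := hW W'
  rw [hdeg] at h
  have hpos : 0 < Module.finrank K ↥(riemannRochSpace (W - W')) := by
    have : (0 : ℤ) < Module.finrank K ↥(riemannRochSpace (W - W')) := by
      have : (g : ℤ) ≤ Module.finrank K ↥(riemannRochSpace W') := by exact_mod_cast hl
      linarith
    exact_mod_cast this
  haveI := rt_L_finite hx (W - W')
  have hne : riemannRochSpace (W - W') ≠ ⊥ := by
    intro hbot
    rw [hbot, finrank_bot] at hpos
    exact lt_irrefl _ hpos
  obtain ⟨z, hz, hz0⟩ := (Submodule.ne_bot_iff _).1 hne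
  refine ⟨z, hz0, ?_⟩
  -- `(z) ≥ W' - W`, both of degree `0`
  have hle : W' - W ≤ rt_div hx z := by
    rw [Finsupp.le_def]
    intro w
    have h1 := (rt_mem_L_iff hz0).1 hz w
    rw [Finsupp.sub_apply] at h1
    rw [Finsupp.sub_apply, rt_div_apply]
    omega
  have heq : W' - W = rt_div hx z := by
    by_contra hne'
    have := rt_degree_lt_of_lt hx hle hne'
    rw [rt_degree_div, map_sub, hdeg, s27wd_degree_canonical hx hW] at this
    omega
  rw [← heq]
  abel

end main

end Fermat.Agent.S27
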